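/-
# RIBET row 38, CORE-OUT WILD, WildFrame piece HOR-DESC (helper127)

Horizontal `p`-divisibility DESCENDS along a constant-field extension.

Abstract setting (exactly the fields of `H704.CoreOut.WildFrame` that are involved):
`E₁ ⊆ L₁` (tame level, cover), `E₂ ⊆ K₂` (wild level, function field), `L₂ ⊇ K₂, L₁` with
`L₂ = L₁(constants algebraic over E₁)`, the constants `E₂` algebraic over `E₁`.  If
`f₂ ∈ K₂` is horizontally `p`-divisible over `E₂` and `f₂ = lc · f' · b ^ p` in `L₂`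
(`lc ∈ E₂ˣ`, `f' ∈ L₁`, `b ≠ 0`), then `f'` is horizontally `p`-divisible over `E₁`:
this is the field `hf'_div` of the frame.

Proof.  `V` a discrete valuation ring of `L₁ / E₁`; `B ⊇ V` the discrete valuation ring of `L₂`
with the SAME uniformiser `π` (`S18.H845.exists_dvr_extension`, `e = 1`); `B ∩ K₂` is all of `K₂`
or a discrete valuation ring containing `E₂`, so `p ∣ v_B(f₂)`; hence `p ∣ v_B(f')` and
`f' = unit · (π ^ k) ^ p` in `V`.
-/
import Fermat.Agent.S18.H845.ConstExt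
import Fermat.Agent.A2.Spec

set_option autoImplicit false
set_option linter.unusedSectionVars false
set_option linter.style.haveILetI false

namespace Fermat.Agent.Ribet.H127

open Fermat.Agent.A2 Fermat.Agent.S18.H845

section Comap

variable {K L : Type*} [Field K] [Field L] (φ : K →+* L) (B : ValuationSubring L)

theorem val_comap_le_one_iff_h127 (x : K) :
    (B.comap φ).valuation x ≤ 1 ↔ B.valuation (φ x) ≤ 1 := by
  rw [ValuationSubring.valuation_le_one_iff, ValuationSubring.valuation_le_one_iff,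
    ValuationSubring.mem_comap]

theorem one_le_val_comap_iff_h127 {x : K} (hx : x ≠ 0) :
    1 ≤ (B.comap φ).valuation x ↔ 1 ≤ B.valuation (φ x) := by
  have h1 := val_comap_le_one_iff_h127 φ B x⁻¹
  rw [map_inv₀, map_inv₀, map_inv₀] at h1
  have hx1 : (B.comap φ).valuation x ≠ 0 := (Valuation.ne_zero_iff _).mpr hx
  have hx2 : B.valuation (φ x) ≠ 0 :=
    (Valuation.ne_zero_iff _).mpr ((map_ne_zero φ).mpr hx)
  rw [inv_le_one₀ (zero_lt_iff.mpr hx1), inv_le_one₀ (zero_lt_iff.mpr hx2)] at h1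
  exact h1

theorem val_comap_eq_one_iff_h127 {x : K} (hx : x ≠ 0) :
    (B.comap φ).valuation x = 1 ↔ B.valuation (φ x) = 1 := by
  rw [le_antisymm_iff, le_antisymm_iff, val_comap_le_one_iff_h127,
    one_le_val_comap_iff_h127 φ B hx]

theorem val_comap_lt_one_iff_h127 {x : K} (hx : x ≠ 0) :
    (B.comap φ).valuation x < 1 ↔ B.valuation (φ x) < 1 := by
  rw [← not_le, ← not_le, one_le_val_comap_iff_h127 φ B hx]

/-- The restriction of a valuation subring with value group `γ ^ ℤ` to a subfield is trivial or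
a discrete valuation ring. -/
theorem comap_trivial_or_dvr_h127 {γ : B.ValueGroup} (hγ0 : γ ≠ 0) (hγ1 : γ < 1)
    (hval : ∀ f : L, f ≠ 0 → ∃ k : ℤ, B.valuation f = γ ^ k) :
    (∀ x : K, x ≠ 0 → B.valuation (φ x) = 1) ∨ IsDiscreteValuationRing (B.comap φ) := by
  by_cases htriv : ∀ x : K, x ≠ 0 → B.valuation (φ x) = 1
  · exact Or.inl htriv
  right
  push Not at htriv
  obtain ⟨x, hx0, hx1⟩ := htriv
  have hγpos : 0 < γ := zero_lt_iff.mpr hγ0
  -- a positive exponent occurs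
  have hex : ∃ n : ℕ, 0 < n ∧ ∃ y : K, y ≠ 0 ∧ B.valuation (φ y) = γ ^ n := by
    obtain ⟨k, hk⟩ := hval (φ x) ((map_ne_zero φ).mpr hx0)
    rcases lt_trichotomy k 0 with h | h | h
    · refine ⟨(-k).toNat, by omega, x⁻¹, inv_ne_zero hx0, ?_⟩
      rw [map_inv₀, map_inv₀, hk, ← zpow_neg, ← zpow_natCast]
      congr 1
      omega
    · exfalso
      apply hx1
      rw [hk, h, zpow_zero]
    · refine ⟨k.toNat, by omega, x, hx0, ?_⟩
      rw [hk, ← zpow_natCast]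
      congr 1
      omega
  classical
  let d := Nat.find hex
  obtain ⟨hd, ϖ, hϖ0, hϖ⟩ : 0 < d ∧ ∃ y : K, y ≠ 0 ∧ B.valuation (φ y) = γ ^ d := Nat.find_spec hex
  have hmin : ∀ m : ℕ, m < d → ¬ (0 < m ∧ ∃ y : K, y ≠ 0 ∧ B.valuation (φ y) = γ ^ m) :=
    fun m hm => Nat.find_min hex hm
  have hϖlt : (B.comap φ).valuation ϖ < 1 := by
    rw [val_comap_lt_one_iff_h127 φ B hϖ0, hϖ]
    exact pow_lt_one₀ hγpos.le hγ1 hd.ne'
  refine isDiscreteValuationRing_of_val (B.comap φ) hϖ0 hϖlt ?_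
  intro f hf
  obtain ⟨n, hn⟩ := hval (φ f) ((map_ne_zero φ).mpr hf)
  have hd' : (0 : ℤ) < (d : ℤ) := by exact_mod_cast hd
  have hr0 : 0 ≤ n % (d : ℤ) := Int.emod_nonneg n hd'.ne'
  have hr1 : n % (d : ℤ) < (d : ℤ) := Int.emod_lt_of_pos n hd'
  have hdiv : (d : ℤ) * (n / (d : ℤ)) + n % (d : ℤ) = n := Int.mul_ediv_add_emod n d
  set q : ℤ := n / (d : ℤ) with hq
  set r : ℤ := n % (d : ℤ) with hr
  have hg0 : f * (ϖ ^ q)⁻¹ ≠ 0 := mul_ne_zero hf (inv_ne_zero (zpow_ne_zero q hϖ0))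
  have hgval : B.valuation (φ (f * (ϖ ^ q)⁻¹)) = γ ^ r.toNat := by
    rw [map_mul, map_mul, map_inv₀, map_inv₀, map_zpow₀, map_zpow₀, hn, hϖ, ← zpow_natCast γ d,
      ← zpow_mul, ← zpow_neg, ← zpow_add₀ hγ0, ← zpow_natCast]
    congr 1
    rw [Int.toNat_of_nonneg hr0]
    linarith
  have hrt : r.toNat = 0 := by
    by_contra hne
    exact hmin r.toNat (by omega) ⟨Nat.pos_of_ne_zero hne, _, hg0, hgval⟩
  rw [hrt, pow_zero, ← val_comap_eq_one_iff_h127 φ B hg0, map_mul, map_inv₀, map_zpow₀] at hgval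
  refine ⟨q, ?_⟩
  have hne : (B.comap φ).valuation ϖ ^ q ≠ 0 :=
    zpow_ne_zero q ((Valuation.ne_zero_iff _).mpr hϖ0)
  calc (B.comap φ).valuation f
      = (B.comap φ).valuation f * ((B.comap φ).valuation ϖ ^ q)⁻¹ *
          (B.comap φ).valuation ϖ ^ q := by
        rw [mul_assoc, inv_mul_cancel₀ hne, mul_one]
    _ = (B.comap φ).valuation ϖ ^ q := by rw [hgval, one_mul]

end Comap

section Main

variable {E₁ L₁ E₂ K₂ L₂ : Type*} [Field E₁] [CharZero E₁] [Field L₁] [Algebra E₁ L₁]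
  [Field E₂] [Field K₂] [Algebra E₂ K₂] [Field L₂] [Algebra K₂ L₂] [Algebra L₁ L₂]
  [Algebra E₁ L₂] [IsScalarTower E₁ L₁ L₂]

/-- **HOR-DESC, valuation form.**  In the situation of `divisibleDiv_descent_h127`, at the
extension `B` of a discrete valuation ring of `L₁ / E₁` to `L₂` the valuation of `f₂` is a
`p`-th power of a power of `γ`. -/
theorem val_pow_of_divisibleDiv_h127 (B : ValuationSubring L₂) {γ : B.ValueGroup} (hγ0 : γ ≠ 0)
    (hγ1 : γ < 1) (hval : ∀ f : L₂, f ≠ 0 → ∃ k : ℤ, B.valuation f = γ ^ k)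
    (hE₂B : ∀ e : E₂, algebraMap K₂ L₂ (algebraMap E₂ K₂ e) ∈ B)
    {p : ℕ} {f₂ : K₂} (hf₂0 : f₂ ≠ 0) (hdiv : DivisibleDiv E₂ p f₂) :
    ∃ k : ℤ, B.valuation (algebraMap K₂ L₂ f₂) = γ ^ ((p : ℤ) * k) := by
  rcases comap_trivial_or_dvr_h127 (algebraMap K₂ L₂) B hγ0 hγ1 hval with htriv | hdvr
  · exact ⟨0, by rw [htriv f₂ hf₂0, mul_zero, zpow_zero]⟩
  · obtain ⟨h, u, hh0, hu, hu', hfu⟩ := hdiv (B.comap (algebraMap K₂ L₂)) hdvr
      (fun e => ValuationSubring.mem_comap.mpr (hE₂B e))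
    have hu0 : u ≠ 0 := by
      rintro rfl
      rw [zero_mul] at hfu
      exact hf₂0 hfu
    have hu1 : B.valuation (algebraMap K₂ L₂ u) = 1 := by
      apply le_antisymm
      · exact (B.valuation_le_one_iff _).mpr (ValuationSubring.mem_comap.mp hu)
      · have h1 : B.valuation (algebraMap K₂ L₂ u⁻¹) ≤ 1 :=
          (B.valuation_le_one_iff _).mpr (ValuationSubring.mem_comap.mp hu')
        rw [map_inv₀, map_inv₀] at h1
        have h0 : B.valuation (algebraMap K₂ L₂ u) ≠ 0 :=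
          (Valuation.ne_zero_iff _).mpr ((map_ne_zero _).mpr hu0)
        rwa [inv_le_one₀ (zero_lt_iff.mpr h0)] at h1
    obtain ⟨k, hk⟩ := hval (algebraMap K₂ L₂ h) ((map_ne_zero _).mpr hh0)
    refine ⟨k, ?_⟩
    rw [hfu, map_mul, map_mul, map_pow, map_pow, hu1, one_mul, hk, ← zpow_natCast, ← zpow_mul,
      mul_comm]

/-- **HOR-DESC** (abstract form of the field `hf'_div` of `H704.CoreOut.WildFrame`).
`L₂ = L₁(constants algebraic over E₁)`, the constants `E₂` of `K₂` are algebraic over `E₁`,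
`f₂ ∈ K₂` horizontally `p`-divisible over `E₂`, `f₂ = lc · f' · b ^ p` in `L₂` with `lc ∈ E₂ˣ`,
`f' ∈ L₁`, `b ≠ 0`.  Then `f'` is horizontally `p`-divisible over `E₁`. -/
theorem divisibleDiv_descent_h127
    (hgen : IntermediateField.adjoin L₁ {α : L₂ | IsAlgebraic E₁ α} = ⊤)
    (hE₂ : ∀ e : E₂, IsAlgebraic E₁ (algebraMap K₂ L₂ (algebraMap E₂ K₂ e)))
    {p : ℕ} {f₂ : K₂} (hf₂0 : f₂ ≠ 0) (hdiv : DivisibleDiv E₂ p f₂)
    {f' : L₁} {lc : E₂} {b : L₂} (hlc : lc ≠ 0) (hb : b ≠ 0)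
    (hf₂ : algebraMap K₂ L₂ f₂ =
      algebraMap K₂ L₂ (algebraMap E₂ K₂ lc) * algebraMap L₁ L₂ f' * b ^ p) :
    DivisibleDiv E₁ p f' := by
  intro V hV hEV
  obtain ⟨B, hcomap, -, hBalg, hBirr, hBval⟩ :=
    exists_dvr_extension (E := E₁) (K := L₁) (L := L₂) V hEV hgen
  have hV_of : ∀ z : L₁, B.valuation (algebraMap L₁ L₂ z) ≤ 1 → z ∈ V := by
    intro z hz
    rw [← hcomap, ValuationSubring.mem_comap]
    exact (B.valuation_le_one_iff _).mp hz
  obtain ⟨π, hπ⟩ := IsDiscreteValuationRing.exists_irreducible V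
  have hπ0 : (π : L₁) ≠ 0 := fun h => hπ.ne_zero (Subtype.ext h)
  have hπL0 : algebraMap L₁ L₂ (π : L₁) ≠ 0 := (map_ne_zero _).mpr hπ0
  set γ : B.ValueGroup := B.valuation (algebraMap L₁ L₂ (π : L₁)) with hγ
  have hγ0 : γ ≠ 0 := (Valuation.ne_zero_iff _).mpr hπL0
  have hγ1 : γ < 1 := by
    obtain ⟨hmem, hirr⟩ := hBirr π hπ
    have hnu : ¬ IsUnit (⟨algebraMap L₁ L₂ (π : L₁), hmem⟩ : B) := hirr.not_isUnit
    have hle : B.valuation (algebraMap L₁ L₂ (π : L₁)) ≤ 1 := (B.valuation_le_one_iff _).mpr hmem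
    refine lt_of_le_of_ne hle ?_
    intro h1
    exact hnu ((B.valuation_eq_one_iff ⟨_, hmem⟩).mpr h1)
  have hval : ∀ f : L₂, f ≠ 0 → ∃ k : ℤ, B.valuation f = γ ^ k := hBval π hπ
  -- the constants of `E₂` are units of `B`
  have hE₂B : ∀ e : E₂, algebraMap K₂ L₂ (algebraMap E₂ K₂ e) ∈ B := fun e => hBalg _ (hE₂ e)
  have hlc1 : B.valuation (algebraMap K₂ L₂ (algebraMap E₂ K₂ lc)) = 1 := by
    have hlc0 : algebraMap K₂ L₂ (algebraMap E₂ K₂ lc) ≠ 0 :=
      (map_ne_zero _).mpr ((map_ne_zero _).mpr hlc)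
    apply le_antisymm
    · exact (B.valuation_le_one_iff _).mpr (hE₂B lc)
    · have h1 : B.valuation (algebraMap K₂ L₂ (algebraMap E₂ K₂ lc⁻¹)) ≤ 1 :=
        (B.valuation_le_one_iff _).mpr (hE₂B lc⁻¹)
      rw [map_inv₀, map_inv₀, map_inv₀] at h1
      rwa [inv_le_one₀ (zero_lt_iff.mpr ((Valuation.ne_zero_iff _).mpr hlc0))] at h1
  -- `p ∣ v_B(f₂)`
  obtain ⟨k, hk⟩ := val_pow_of_divisibleDiv_h127 B hγ0 hγ1 hval hE₂B hf₂0 hdiv
  obtain ⟨j, hj⟩ := hval b hb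
  -- `f' ≠ 0`
  have hf'0 : f' ≠ 0 := by
    rintro rfl
    rw [map_zero, mul_zero, zero_mul] at hf₂
    exact hf₂0 ((map_eq_zero _).mp hf₂)
  -- `v_B(f') = γ ^ (p (k - j))`
  have hbp : B.valuation b ^ p ≠ 0 := pow_ne_zero _ ((Valuation.ne_zero_iff _).mpr hb)
  have hf'val : B.valuation (algebraMap L₁ L₂ f') = γ ^ ((p : ℤ) * (k - j)) := by
    have h1 := congrArg B.valuation hf₂
    rw [map_mul, map_mul, map_pow, hlc1, one_mul, hk] at h1
    have h2 : B.valuation (algebraMap L₁ L₂ f') = γ ^ ((p : ℤ) * k) * (B.valuation b ^ p)⁻¹ := by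
      rw [h1, mul_assoc, mul_inv_cancel₀ hbp, mul_one]
    rw [h2, hj, ← zpow_natCast (γ ^ j) p, ← zpow_mul, ← zpow_neg, ← zpow_add₀ hγ0]
    congr 1
    ring
  -- conclusion
  refine ⟨(π : L₁) ^ (k - j), f' * (((π : L₁) ^ (k - j)) ^ p)⁻¹, zpow_ne_zero _ hπ0, ?_, ?_, ?_⟩
  · apply hV_of
    rw [map_mul, map_mul,
      map_inv₀, map_inv₀, map_pow, map_pow, map_zpow₀, map_zpow₀, hf'val, ← hγ,
      ← zpow_natCast (γ ^ (k - j)) p, ← zpow_mul, ← zpow_neg, ← zpow_add₀ hγ0]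
    apply le_of_eq
    have : (p : ℤ) * (k - j) + -((k - j) * (p : ℤ)) = 0 := by ring
    rw [this, zpow_zero]
  · apply hV_of
    rw [map_inv₀, map_inv₀,
      map_mul, map_mul, map_inv₀, map_inv₀, map_pow, map_pow, map_zpow₀, map_zpow₀, hf'val, ← hγ,
      ← zpow_natCast (γ ^ (k - j)) p, ← zpow_mul, ← zpow_neg, ← zpow_add₀ hγ0]
    apply le_of_eq
    have : (p : ℤ) * (k - j) + -((k - j) * (p : ℤ)) = 0 := by ring
    rw [this, zpow_zero, inv_one]
  · have hne : ((π : L₁) ^ (k - j)) ^ p ≠ 0 := pow_ne_zero _ (zpow_ne_zero _ hπ0)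
    rw [mul_assoc, inv_mul_cancel₀ hne, mul_one]

/-- **HOR-DESC**, generators form: `L₂` is generated over `L₁` by the constants of `E₂`. -/
theorem divisibleDiv_descent_range_h127
    (hgen : IntermediateField.adjoin L₁
      (Set.range fun e : E₂ => algebraMap K₂ L₂ (algebraMap E₂ K₂ e)) = ⊤)
    (hE₂ : ∀ e : E₂, IsAlgebraic E₁ (algebraMap K₂ L₂ (algebraMap E₂ K₂ e)))
    {p : ℕ} {f₂ : K₂} (hf₂0 : f₂ ≠ 0) (hdiv : DivisibleDiv E₂ p f₂)
    {f' : L₁} {lc : E₂} {b : L₂} (hlc : lc ≠ 0) (hb : b ≠ 0)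
    (hf₂ : algebraMap K₂ L₂ f₂ =
      algebraMap K₂ L₂ (algebraMap E₂ K₂ lc) * algebraMap L₁ L₂ f' * b ^ p) :
    DivisibleDiv E₁ p f' := by
  refine divisibleDiv_descent_h127 ?_ hE₂ hf₂0 hdiv hlc hb hf₂
  rw [eq_top_iff, ← hgen]
  refine IntermediateField.adjoin.mono _ _ _ ?_
  rintro _ ⟨e, rfl⟩
  exact hE₂ e

end Main

section Frame

variable {E₁ K₁ L₁ E₂ K₂ L₂ : Type*} [Field E₁] [CharZero E₁] [Field K₁] [Field L₁]
  [Algebra E₁ L₁] [Algebra K₁ L₁]
  [Field E₂] [Field K₂] [Algebra E₂ K₂] [Field L₂] [Algebra K₂ L₂] [Algebra L₁ L₂]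
  [Algebra K₁ K₂] [Algebra K₁ L₂] [IsScalarTower K₁ K₂ L₂] [IsScalarTower K₁ L₁ L₂]

omit [CharZero E₁] [Algebra E₁ L₁] in
/-- If `K₂ = K₁ · E₂` and `L₂ = K₂(h)` with `h ∈ L₁`, then `L₂ = L₁ · E₂`
(the shape of the covers in `H704.CoreOut.WildFrame`: `hadj₂`). -/
theorem adjoin_range_eq_top_h127
    (hK₂ : IntermediateField.adjoin K₁ (Set.range (algebraMap E₂ K₂)) = ⊤)
    (h : L₁) (hadj₂ : IntermediateField.adjoin K₂ ({algebraMap L₁ L₂ h} : Set L₂) = ⊤) :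
    IntermediateField.adjoin L₁
      (Set.range fun e : E₂ => algebraMap K₂ L₂ (algebraMap E₂ K₂ e)) = ⊤ := by
  set T : IntermediateField L₁ L₂ := IntermediateField.adjoin L₁
      (Set.range fun e : E₂ => algebraMap K₂ L₂ (algebraMap E₂ K₂ e)) with hT
  -- the image of `K₂` lies in `T`
  have hK : ∀ x : K₂, algebraMap K₂ L₂ x ∈ T := by
    intro x
    have hx : x ∈ IntermediateField.adjoin K₁ (Set.range (algebraMap E₂ K₂)) := by
      rw [hK₂]; exact IntermediateField.mem_top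
    induction hx using IntermediateField.adjoin_induction with
    | mem y hy =>
      obtain ⟨e, rfl⟩ := hy
      exact IntermediateField.subset_adjoin _ _ ⟨e, rfl⟩
    | algebraMap k =>
      rw [← IsScalarTower.algebraMap_apply K₁ K₂ L₂, IsScalarTower.algebraMap_apply K₁ L₁ L₂]
      exact T.algebraMap_mem _
    | add y z _ _ hy hz => rw [map_add]; exact T.add_mem hy hz
    | inv y _ hy => rw [map_inv₀]; exact T.inv_mem hy
    | mul y z _ _ hy hz => rw [map_mul]; exact T.mul_mem hy hz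
  rw [eq_top_iff]
  intro y _
  have hy : y ∈ IntermediateField.adjoin K₂ ({algebraMap L₁ L₂ h} : Set L₂) := by
    rw [hadj₂]; exact IntermediateField.mem_top
  induction hy using IntermediateField.adjoin_induction with
  | mem z hz =>
    rw [Set.mem_singleton_iff] at hz
    rw [hz]
    exact T.algebraMap_mem _
  | algebraMap k => exact hK k
  | add y z _ _ hy hz => exact T.add_mem (hy trivial) (hz trivial)
  | inv y _ hy => exact T.inv_mem (hy trivial)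
  | mul y z _ _ hy hz => exact T.mul_mem (hy trivial) (hz trivial)

/-- **HOR-DESC, frame form**: no `Algebra E₁ L₂` needed.  Hypotheses in the shape of the fields
of `H704.CoreOut.WildFrame` (`hadj₂`, `hf₂`), plus `K₂ = K₁ · E₂` and the constants of `E₂`
algebraic over `ℚ`.  Conclusion: the field `hf'_div`. -/
theorem divisibleDiv_descent_frame_h127 [CharZero E₂]
    (hK₂ : IntermediateField.adjoin K₁ (Set.range (algebraMap E₂ K₂)) = ⊤)
    (h : L₁) (hadj₂ : IntermediateField.adjoin K₂ ({algebraMap L₁ L₂ h} : Set L₂) = ⊤)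
    (hE₂ : ∀ e : E₂, IsAlgebraic ℚ e)
    {p : ℕ} {f₂ : K₂} (hf₂0 : f₂ ≠ 0) (hdiv : DivisibleDiv E₂ p f₂)
    {f' : L₁} {lc : E₂} {b : L₂} (hlc : lc ≠ 0) (hb : b ≠ 0)
    (hf₂ : algebraMap K₂ L₂ f₂ =
      algebraMap K₂ L₂ (algebraMap E₂ K₂ lc) * algebraMap L₁ L₂ f' * b ^ p) :
    DivisibleDiv E₁ p f' := by
  letI : Algebra E₁ L₂ := ((algebraMap L₁ L₂).comp (algebraMap E₁ L₁)).toAlgebra
  haveI : IsScalarTower E₁ L₁ L₂ := IsScalarTower.of_algebraMap_eq (fun _ => rfl)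
  refine divisibleDiv_descent_range_h127 (adjoin_range_eq_top_h127 hK₂ h hadj₂) ?_ hf₂0 hdiv
    hlc hb hf₂
  intro e
  exact (hE₂ e).ringHom_of_comp_eq (algebraMap ℚ E₁)
    ((algebraMap K₂ L₂).comp (algebraMap E₂ K₂)) (algebraMap ℚ E₁).injective
    (Subsingleton.elim _ _)

end Frame

end Fermat.Agent.Ribet.H127
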